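import Fermat.Agent.S59.NMP.H583.OldPC
import Fermat.Agent.S59.H63.OldDescent

/-!
# OLD-P (helper583): descent `ℂ ⇒ K` and the leaf `oldP : OldPStatement`

One-stage copy of `H63.oldDescent` (helper63), with its transport lemmas.
-/

set_option autoImplicit false

open CongruenceSubgroup Cardinal
open scoped MatrixGroups

namespace Fermat.Agent.S59.NMP.H583

open Fermat.Agent.S59.NM Fermat.Agent.S41.Spec Fermat.Agent.S29.H642 Fermat.Agent.S59.H63

/-- **OLD-P-DESCENT.** -/
theorem oldPDescent : OldPDescentStatement := by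
  intro hC K _ _ N p hN hp hpN S hpS hNS a hx y hy
  obtain ⟨x, hx0, hx⟩ := hx
  classical
  -- the subfield generated by the values
  let s : Set K := (Set.range fun γ : Additive (Gamma0 N) => x γ) ∪
    (Set.range fun γ : Additive (Gamma0 (N * p)) => y γ) ∪ Set.range a
  let K₀ : Subfield K := Subfield.closure s
  have hxs : ∀ γ, x γ ∈ K₀ := fun γ =>
    Subfield.subset_closure (Or.inl (Or.inl ⟨γ, rfl⟩))
  have hys : ∀ γ, y γ ∈ K₀ := fun γ =>
    Subfield.subset_closure (Or.inl (Or.inr ⟨γ, rfl⟩))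
  have has : ∀ l, a l ∈ K₀ := fun l => Subfield.subset_closure (Or.inr ⟨l, rfl⟩)
  have hcG : ∀ n : ℕ, Countable (Additive (Gamma0 n)) := fun n =>
    Function.Injective.countable (β := Fin 2 → Fin 2 → ℤ)
      (f := fun γ : Additive (Gamma0 n) =>
        fun i j => ((Additive.toMul γ : Gamma0 n) : SL(2, ℤ)) i j)
      (fun γ γ' h => by
        have h1 : (Additive.toMul γ : Gamma0 n) = Additive.toMul γ' :=
          Subtype.ext (Subtype.ext (Matrix.ext fun i j => congrFun (congrFun h i) j))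
        exact Additive.toMul.injective h1)
  have := hcG N
  have := hcG (N * p)
  have hscount : s.Countable :=
    ((Set.countable_range _).union (Set.countable_range _)).union (Set.countable_range _)
  have hK₀ : #K₀ ≤ 𝔠 := by
    have h1 : #K₀ ≤ max #s ℵ₀ := Subfield.cardinalMk_closure_le_max s
    have h2 : #s ≤ ℵ₀ := hscount.le_aleph0
    exact (h1.trans (max_le h2 le_rfl)).trans aleph0_le_continuum
  -- the embedding into `ℂ`
  have : FaithfulSMul ℤ K₀ :=
    (faithfulSMul_iff_algebraMap_injective ℤ K₀).mpr (by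
      intro m n hmn
      have : ((m : K₀) : K) = ((n : K₀) : K) := congrArg _ hmn
      exact_mod_cast this)
  have : FaithfulSMul ℤ ℂ :=
    (faithfulSMul_iff_algebraMap_injective ℤ ℂ).mpr (by
      intro m n hmn
      exact_mod_cast hmn)
  obtain ⟨ι'⟩ := Fermat.Agent.S48.H368.nonempty_algHom_complex (O := ℤ) (E := K₀) hK₀
  let ι : K₀ →+* ℂ := ι'.toRingHom
  have hι : Function.Injective ι := ι.injective
  -- the restricted classes
  let x₀ : Additive (Gamma0 N) →+ K₀ := x.codRestrict K₀ hxs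
  let y₀ : Additive (Gamma0 (N * p)) →+ K₀ := y.codRestrict K₀ hys
  let a₀ : ℕ → K₀ := fun l => ⟨a l, has l⟩
  have hsub : Function.Injective (K₀.subtype : K₀ →+ K) := Subtype.val_injective
  have ex : (K₀.subtype : K₀ →+ K).comp x₀ = x := AddMonoidHom.ext fun γ => rfl
  have ey : (K₀.subtype : K₀ →+ K).comp y₀ = y := AddMonoidHom.ext fun γ => rfl
  have hx₀ : IsEigenclass N S a₀ x₀ :=
    isEigenclass_of_comp63 (b := a) (K₀.subtype : K₀ →+ K) hsub (fun l v => rfl)
      (x := x₀) (ex.symm ▸ hx)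
  have hy₀ : IsEigenclass (N * p) S a₀ y₀ :=
    isEigenclass_of_comp63 (b := a) (K₀.subtype : K₀ →+ K) hsub (fun l v => rfl)
      (x := y₀) (ey.symm ▸ hy)
  have hxC : IsEigenclass N S (fun l => ι (a₀ l)) ((ι : K₀ →+ ℂ).comp x₀) :=
    isEigenclass_comp63 (ι : K₀ →+ ℂ) (fun l v => map_mul ι _ _) hx₀
  have hyC : IsEigenclass (N * p) S (fun l => ι (a₀ l)) ((ι : K₀ →+ ℂ).comp y₀) :=
    isEigenclass_comp63 (ι : K₀ →+ ℂ) (fun l v => map_mul ι _ _) hy₀
  have hxC0 : (ι : K₀ →+ ℂ).comp x₀ ≠ 0 := by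
    intro h0
    apply hx0
    refine AddMonoidHom.ext fun γ => ?_
    have h1 := DFunLike.congr_fun h0 γ
    simp only [AddMonoidHom.comp_apply, AddMonoidHom.zero_apply] at h1
    have h2 : x₀ γ = 0 := hι (by rw [map_zero]; exact h1)
    have h3 : ((x₀ γ : K₀) : K) = 0 := by rw [h2]; rfl
    exact h3
  obtain ⟨z₁, z₂, hz₁, hz₂, hyz⟩ :=
    hC N p hN hp hpN S hpS hNS (fun l => ι (a₀ l)) ⟨_, hxC0, hxC⟩ _ hyC
  -- the retraction
  let _ : Algebra K₀ ℂ := ι.toAlgebra
  obtain ⟨lam, hlam⟩ := LinearMap.exists_leftInverse_of_injective (Algebra.linearMap K₀ ℂ)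
    (LinearMap.ker_eq_bot.mpr (by exact hι))
  have hlamι : ∀ c : K₀, lam (ι c) = c := fun c => LinearMap.congr_fun hlam c
  have hlamsmul : ∀ (c : K₀) (v : ℂ), lam (ι c * v) = c * lam v := by
    intro c v
    have : ι c * v = c • v := (Algebra.smul_def c v).symm
    rw [this, map_smul, smul_eq_mul]
  let π : ℂ →+ K := (K₀.subtype : K₀ →+ K).comp lam.toAddMonoidHom
  have hπ : ∀ (l : ℕ) (v : ℂ), π (ι (a₀ l) * v) = a l * π v := by
    intro l v
    show ((lam (ι (a₀ l) * v) : K₀) : K) = a l * ((lam v : K₀) : K)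
    rw [hlamsmul]
    rfl
  refine ⟨π.comp z₁, π.comp z₂, isEigenclass_comp63 π hπ hz₁, isEigenclass_comp63 π hπ hz₂, ?_⟩
  have e₁ : r₁ N p (π.comp z₁) = π.comp (r₁ N p z₁) := rfl
  have e₂ : r₂ N p (π.comp z₂) = π.comp (r₂ N p z₂) := rfl
  rw [e₁, e₂, ← AddMonoidHom.comp_add, ← hyz]
  refine AddMonoidHom.ext fun γ => ?_
  show y γ = ((lam (ι (y₀ γ)) : K₀) : K)
  rw [hlamι]
  rfl

/-- **OLD-P.** -/
theorem oldP : OldPStatement := oldPDescent oldPC

end Fermat.Agent.S59.NMP.H583
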