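import Fermat.Agent.S59.NMP.H583.OldPForms
import Fermat.Agent.S59.H563.OldC

/-!
# OLD-P over `ℂ` (helper583): `OldPCStatement`

Eichler–Shimura (S21) moves eigenclasses to pairs of cusp forms (`H563`), `oldPForms` decomposes
the forms, `H563.periodHomPair_levelIncl563` / `periodHomPair_degen563` move the decomposition
back.  One-stage copy of `H563.oldC563`.
-/

set_option autoImplicit false

open CongruenceSubgroup ModularCurve ModularCurve.Period ModularFormClass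
open scoped MatrixGroups

namespace Fermat.Agent.S59.NMP.H583

open Fermat.Agent.S59.NM Fermat.Agent.S41.Spec Fermat.Agent.S29.H642
open Fermat.Agent.Lib.Newform Fermat.Agent.S59.H563

/-- **OLD-P over `ℂ`.** -/
theorem oldPC : OldPCStatement := by
  intro N p hN hp hpN S hpS hNS a ⟨x, hx0, hx⟩ y hy
  haveI : NeZero N := ⟨hN⟩
  haveI : NeZero p := ⟨hp.ne_zero⟩
  haveI : NeZero (N * p) := ⟨Nat.mul_ne_zero hN hp.ne_zero⟩
  -- the system occurs in level `N`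
  obtain ⟨G₁, G₂, hG, hG₁, hG₂⟩ := exists_pair_of_isEigenclass563 S a x hx
  have hocc : ∃ G : CuspForm (Gamma0 N) 2, G ≠ 0 ∧
      ∀ (l : ℕ) (hl : l.Prime) (hlN : ¬ l ∣ N), l ∉ S →
        CuspForm.heckeTLin 2 hl hlN G = a l • G := by
    by_cases h1 : G₁ = 0
    · refine ⟨G₂, ?_, hG₂⟩
      rintro rfl
      apply hx0
      rw [← hG, h1]
      exact map_zero _
    · exact ⟨G₁, h1, hG₁⟩
  -- the forms of level `N p`
  obtain ⟨F₁, F₂, hF, hF₁, hF₂⟩ := exists_pair_of_isEigenclass563 S a y hy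
  obtain ⟨u₁, u₂, hu₁, hu₂, hFu⟩ := oldPForms N p hp hpN S hpS hNS a hocc F₁ hF₁
  obtain ⟨v₁, v₂, hv₁, hv₂, hFv⟩ := oldPForms N p hp hpN S hpS hNS a hocc F₂ hF₂
  have dec : ∀ (F : CuspForm (Gamma0 (N * p)) 2) (w₁ w₂ : CuspForm (Gamma0 N) 2),
      (∀ τ : UpperHalfPlane, F τ = w₁ τ + w₂ (ModularForm.heckeDiagMatrix p • τ)) →
      F = H863.levelIncl (Dvd.intro p rfl) w₁ + H863.degen p w₂ := by
    intro F w₁ w₂ h
    apply DFunLike.coe_injective
    funext τ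
    rw [h τ]
    simp only [FunLike.coe_add, Pi.add_apply, H863.coe_levelIncl, H863.degen_apply]
  have hsm : ∀ (c : ℂ) (w : CuspForm (Gamma0 N) 2),
      (∀ (l : ℕ) (hl : l.Prime) (hlN : ¬ l ∣ N), l ∉ S →
        CuspForm.heckeTLin 2 hl hlN w = a l • w) →
      ∀ (l : ℕ) (hl : l.Prime) (hlN : ¬ l ∣ N), l ∉ S →
        CuspForm.heckeTLin 2 hl hlN (c • w) = a l • (c • w) := by
    intro c w hw l hl hlN hlS
    rw [map_smul, hw l hl hlN hlS, smul_comm]
  refine ⟨periodHomPair N (u₁, v₁),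
    periodHomPair N ((p : ℂ)⁻¹ • u₂, (p : ℂ)⁻¹ • v₂),
    isEigenclass_periodHomPair563 S a _ _ hu₁ hv₁,
    isEigenclass_periodHomPair563 S a _ _ (hsm _ _ hu₂) (hsm _ _ hv₂), ?_⟩
  have hsplit : ∀ A₁ B₁ A₂ B₂ : CuspForm (Gamma0 (N * p)) 2,
      periodHomPair (N * p) (A₁ + B₁, A₂ + B₂) =
        periodHomPair (N * p) (A₁, A₂) + periodHomPair (N * p) (B₁, B₂) := by
    intro A₁ B₁ A₂ B₂
    have e : ((A₁ + B₁, A₂ + B₂) :
        CuspForm (Gamma0 (N * p)) 2 × CuspForm (Gamma0 (N * p)) 2) =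
        (A₁, A₂) + (B₁, B₂) := rfl
    rw [e, map_add]
  rw [← hF, dec F₁ u₁ u₂ hFu, dec F₂ v₁ v₂ hFv, hsplit,
    periodHomPair_levelIncl563 (N := N) (q := p) u₁ v₁,
    periodHomPair_degen563 (N := N) (q := p) u₂ v₂]

end Fermat.Agent.S59.NMP.H583
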