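import Fermat.Agent.S59.NMP.H583.OldPSpec
import Fermat.Agent.S59.H563.OldForms

/-!
# OLD-P, forms side (helper583): `OldPFormsStatement`

An eigenform of level `N p` away from `S ∋ p` whose system of eigenvalues occurs in level `N`
is `h₁(τ) + h₂(p τ)` with eigenforms `h_i` of level `N` away from `S`.
Proof: `H563.struct563` (helper563), as in `H563.oldForms563`.
-/

set_option autoImplicit false

open CongruenceSubgroup ModularFormClass ModularForm UpperHalfPlane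

namespace Fermat.Agent.S59.NMP.H583

open Fermat.Agent.Lib.Newform Fermat.Agent.S59.H563

/-- The forms of level `N p` of the shape `h₁(τ) + h₂(p τ)`. -/
def pair583 (N p : ℕ) (S : Finset ℕ) (a : ℕ → ℂ) :
    Submodule ℂ (CuspForm (Gamma0 (N * p)) 2) where
  carrier := {F | ∃ h₁ h₂ : CuspForm (Gamma0 N) 2,
    (∀ (l : ℕ) (hl : l.Prime) (hlN : ¬ l ∣ N), l ∉ S →
      CuspForm.heckeTLin 2 hl hlN h₁ = a l • h₁) ∧
    (∀ (l : ℕ) (hl : l.Prime) (hlN : ¬ l ∣ N), l ∉ S →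
      CuspForm.heckeTLin 2 hl hlN h₂ = a l • h₂) ∧
    ∀ τ : ℍ, F τ = h₁ τ + h₂ (heckeDiagMatrix p • τ)}
  zero_mem' := ⟨0, 0, fun l hl hlN _ => by simp, fun l hl hlN _ => by simp, fun τ => by simp⟩
  add_mem' := by
    rintro F F' ⟨h₁, h₂, e₁, e₂, hF⟩ ⟨h₁', h₂', e₁', e₂', hF'⟩
    refine ⟨h₁ + h₁', h₂ + h₂', ?_, ?_, fun τ => ?_⟩
    · intro l hl hlN hlS
      rw [map_add, e₁ l hl hlN hlS, e₁' l hl hlN hlS, smul_add]
    · intro l hl hlN hlS
      rw [map_add, e₂ l hl hlN hlS, e₂' l hl hlN hlS, smul_add]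
    · simp only [CuspForm.coe_add, Pi.add_apply]
      rw [hF τ, hF' τ]
      ring
  smul_mem' := by
    rintro c F ⟨h₁, h₂, e₁, e₂, hF⟩
    refine ⟨c • h₁, c • h₂, ?_, ?_, fun τ => ?_⟩
    · intro l hl hlN hlS
      rw [map_smul, e₁ l hl hlN hlS, smul_comm]
    · intro l hl hlN hlS
      rw [map_smul, e₂ l hl hlN hlS, smul_comm]
    · simp only [CuspForm.IsGLPos.coe_smul, Pi.smul_apply, smul_eq_mul]
      rw [hF τ]
      ring

/-- **OLD-P-FORMS.** -/
theorem oldPForms : OldPFormsStatement := by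
  intro N p _ _ _ hp hpN S hpS hNS a ⟨G, hG0, hGeig⟩ F hF
  have hN0 : N ≠ 0 := NeZero.ne N
  have hp0 : p ≠ 0 := hp.ne_zero
  -- the newform
  obtain ⟨g, hg, hgl⟩ := H863.exists_normalizedEigenform_of_eigenvector (S : Set ℕ) a G hG0
    (fun l hl hlN hlS => hGeig l hl hlN (by simpa using hlS))
  obtain ⟨N₀, hN₀N, f₀, hf₀, hf₀g⟩ := H958.descent N g hg
  haveI : NeZero N₀ := ⟨fun h0 => hN0 (Nat.eq_zero_of_zero_dvd (h0 ▸ hN₀N))⟩
  have hgoodN : ∀ l : ℕ, l.Prime → l ∉ S → ¬ l ∣ N := fun l hl hlS hd => hlS (hNS l hl hd)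
  have ha : ∀ l : ℕ, l.Prime → l ∉ S → qCoeff f₀ l = a l := by
    intro l hl hlS
    rw [hf₀g l hl (hgoodN l hl hlS)]
    exact hgl l hl (hgoodN l hl hlS) (by simpa using hlS)
  have hprimes : ∀ r : ℕ, r.Prime → r ∣ N * p → r ∈ S := by
    intro r hr hrd
    rcases (Nat.Prime.dvd_mul hr).mp hrd with h1 | h1
    · exact hNS r hr h1
    · rw [(Nat.prime_dvd_prime_iff_eq hr hp).mp h1]
      exact hpS
  have hmem := struct563 f₀ hf₀ S a ha (N * p) (NeZero.ne _) hprimes F hF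
  -- the span is contained in the pairs
  have hpN₀ : ¬ p ∣ N₀ := fun h => hpN (h.trans hN₀N)
  have hle : oldSpan563 f₀ (N * p) ≤ pair583 N p S a := by
    unfold oldSpan563
    apply Submodule.span_le.mpr
    rintro g' ⟨d, hd0, hdvd, hgd⟩
    by_cases hpd : p ∣ d
    · obtain ⟨d₁, rfl⟩ := hpd
      have hd₁0 : d₁ ≠ 0 := fun h => hd0 (by rw [h, mul_zero])
      have hdvd₁ : d₁ * N₀ ∣ N := by
        have : p * (d₁ * N₀) ∣ p * N := by
          rw [← mul_assoc, mul_comm p N]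
          exact hdvd
        exact (Nat.mul_dvd_mul_iff_left hp.pos).mp this
      haveI : NeZero d₁ := ⟨hd₁0⟩
      refine ⟨0, H863.raiseLin hdvd₁ f₀, fun l hl hlN _ => by simp,
        fun l hl hlN hlS => raise_eigen563 f₀ hf₀.1 S a ha hdvd₁ l hl hlN hlS, fun τ => ?_⟩
      rw [hgd τ, H863.raiseLin_apply hdvd₁ f₀, heckeDiag_smul_smul563 hd₁0 hp0]
      simp only [CuspForm.coe_zero, Pi.zero_apply, zero_add]
      congr 2
      ring_nf
    · have hc : Nat.Coprime (d * N₀) p := by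
        apply Nat.Coprime.symm
        rw [Nat.Prime.coprime_iff_not_dvd hp]
        intro h
        rcases (Nat.Prime.dvd_mul hp).mp h with h1 | h1
        · exact hpd h1
        · exact hpN₀ h1
      have hdvd₂ : d * N₀ ∣ N := hc.dvd_of_dvd_mul_right hdvd
      haveI : NeZero d := ⟨hd0⟩
      refine ⟨H863.raiseLin hdvd₂ f₀, 0,
        fun l hl hlN hlS => raise_eigen563 f₀ hf₀.1 S a ha hdvd₂ l hl hlN hlS,
        fun l hl hlN _ => by simp, fun τ => ?_⟩
      rw [hgd τ, H863.raiseLin_apply hdvd₂ f₀]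
      simp only [CuspForm.coe_zero, Pi.zero_apply, add_zero]
  exact hle hmem

end Fermat.Agent.S59.NMP.H583
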