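import Fermat.Agent.S59.H563.OldSpec

/-!
# Row S59, cell NMP, leaf STEP-P — the oldness input OLD-P (helper583)

`NMP.BoundStepPStatement` (Ihara at `p`, owner helper341) needs: an eigenclass of level `N p`
away from `S ∋ p` (`p ∤ N`), for a system of eigenvalues which occurs in level `N`, is OLD:

    y = r₁ z₁ + r₂ z₂,     z_i eigenclasses of level `N` away from `S`.

Same route as NM-OLD (`S59/H563/OldSpec.lean`, helper563), one stage instead of two:

* `OldPFormsStatement`   : forms side (Atkin–Lehner–Li, `H563.struct563`) — PROVED in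
  `NMP/H583/OldPForms.lean`;
* `OldPCStatement`       : the statement over `ℂ` (Eichler–Shimura S21 + `H563.OldPeriodStatement`
  + `H563.OldInvolutionStatement` + forms side);
* `OldPDescentStatement` : `ℂ ⇒` every field of characteristic `0`;
* `OldPStatement`        : the leaf.

Only definitions here.
-/

set_option autoImplicit false

open CongruenceSubgroup ModularCurve ModularCurve.Period
open scoped MatrixGroups

namespace Fermat.Agent.S59.NMP.H583

open Fermat.Agent.S59.NM Fermat.Agent.S41.Spec Fermat.Agent.S29.H642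

/-- **OLD-P.**  `K` a field of characteristic `0`, `p ∤ N` a prime, `p ∈ S ⊇ primes(N)`, `a` a
system of eigenvalues occurring in level `N`.  Every eigenclass of level `N p` away from `S` is
`r₁ z₁ + r₂ z₂` with eigenclasses `z_i` of level `N` away from `S`. -/
def OldPStatement : Prop :=
  ∀ (K : Type) [Field K] [CharZero K] (N p : ℕ), N ≠ 0 → p.Prime → ¬ p ∣ N →
    ∀ (S : Finset ℕ), p ∈ S → (∀ r : ℕ, r.Prime → r ∣ N → r ∈ S) →
    ∀ (a : ℕ → K),
      (∃ x : Additive (Gamma0 N) →+ K, x ≠ 0 ∧ IsEigenclass N S a x) →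
      ∀ y : Additive (Gamma0 (N * p)) →+ K, IsEigenclass (N * p) S a y →
        ∃ z₁ z₂ : Additive (Gamma0 N) →+ K,
          IsEigenclass N S a z₁ ∧ IsEigenclass N S a z₂ ∧ y = r₁ N p z₁ + r₂ N p z₂

/-- **OLD-P over `ℂ`.** -/
def OldPCStatement : Prop :=
  ∀ (N p : ℕ), N ≠ 0 → p.Prime → ¬ p ∣ N →
    ∀ (S : Finset ℕ), p ∈ S → (∀ r : ℕ, r.Prime → r ∣ N → r ∈ S) →
    ∀ (a : ℕ → ℂ),
      (∃ x : Additive (Gamma0 N) →+ ℂ, x ≠ 0 ∧ IsEigenclass N S a x) →
      ∀ y : Additive (Gamma0 (N * p)) →+ ℂ, IsEigenclass (N * p) S a y →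
        ∃ z₁ z₂ : Additive (Gamma0 N) →+ ℂ,
          IsEigenclass N S a z₁ ∧ IsEigenclass N S a z₂ ∧ y = r₁ N p z₁ + r₂ N p z₂

/-- **OLD-P-DESCENT**: the statement over `ℂ` implies the statement over every field of
characteristic `0` (same proof as `H563.OldDescentStatement`). -/
def OldPDescentStatement : Prop := OldPCStatement → OldPStatement

/-- **OLD-P-FORMS** (Atkin–Lehner–Li): an eigenform of level `N p` away from `S ∋ p` whose
system occurs in level `N` is `h₁(τ) + h₂(p τ)` with eigenforms `h_i` of level `N`. -/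
def OldPFormsStatement : Prop :=
  ∀ (N p : ℕ) [NeZero N] [NeZero p] [NeZero (N * p)], p.Prime → ¬ p ∣ N →
    ∀ (S : Finset ℕ), p ∈ S → (∀ r : ℕ, r.Prime → r ∣ N → r ∈ S) →
    ∀ (a : ℕ → ℂ),
      (∃ G : CuspForm (Gamma0 N) 2, G ≠ 0 ∧
        ∀ (l : ℕ) (hl : l.Prime) (hlN : ¬ l ∣ N), l ∉ S →
          CuspForm.heckeTLin 2 hl hlN G = a l • G) →
      ∀ F : CuspForm (Gamma0 (N * p)) 2,
        (∀ (l : ℕ) (hl : l.Prime) (hlN : ¬ l ∣ N * p), l ∉ S →
          CuspForm.heckeTLin 2 hl hlN F = a l • F) →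
        ∃ h₁ h₂ : CuspForm (Gamma0 N) 2,
          (∀ (l : ℕ) (hl : l.Prime) (hlN : ¬ l ∣ N), l ∉ S →
            CuspForm.heckeTLin 2 hl hlN h₁ = a l • h₁) ∧
          (∀ (l : ℕ) (hl : l.Prime) (hlN : ¬ l ∣ N), l ∉ S →
            CuspForm.heckeTLin 2 hl hlN h₂ = a l • h₂) ∧
          ∀ τ : UpperHalfPlane, F τ = h₁ τ + h₂ (ModularForm.heckeDiagMatrix p • τ)

end Fermat.Agent.S59.NMP.H583
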